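import Fermat.Agent.H12.SS2.Reg11Rows2
import Fermat.Agent.H23.SS2.PlaceExist
import Fermat.Agent.H60.SS2.LocPrime
import Fermat.Agent.H89.KLGauss

/-!
# P-SS2 row 1073 (SS2-C5h PA-GLUE) (helper97)

`paGlue : Fermat.Agent.H12.SS2.PaGlueStatement`.

At a regular point `𝔪a B_𝔪a = (ϖ, u₀)` on the vertical valuation `V` (local equation `ϖ`),
every `Z ∈ B` with `Z ≡ u₀` modulo `𝔪_V` vanishes at some place centred at `𝔪a`.

Proof: `c := (Z - u₀) / ϖ ∈ B_𝔪a` by `prin`, so `(ϖ, Z)` are again regular parameters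
(`IsRegularAt`), and `Fermat.Agent.H23.SS2.placeExists` gives the place `Z = 0`.
-/

set_option autoImplicit false
set_option linter.unusedSectionVars false
set_option linter.style.haveILetI false

noncomputable section

namespace Fermat.Agent.H97.SS2

open Fermat.Agent.H22.KL Fermat.Agent.H45 Fermat.Agent.H11.SS2

/-- `(ϖ, Z)` are regular parameters at `𝔪a` if `(ϖ, u₀)` are (in the sense of `IsRegPoint`, with
`ϖ` the local equation of the branch `V`) and `Z ≡ u₀` on `V`. -/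
theorem isRegularAt_of_isRegPoint_of_congr
    (A : Type) [CommRing A] [IsDomain A] [IsDiscreteValuationRing A]
    (E : Type) [Field E] [Algebra A E] [CharZero E]
    (hinj : Function.Injective (algebraMap A E))
    (ϖ : A) (hϖ : Irreducible ϖ) (y : E) (hy : Transcendental A y)
    (hfd : ∃ n : ℕ, Nonempty (Module.Basis (Fin n) (chartField A E y) E))
    (𝔪a : Ideal (chartClosure A E y)) (h𝔪 : 𝔪a.IsMaximal)
    (V : ValuationSubring E) (u₀ : E)
    (hreg : IsRegPoint A E ϖ y 𝔪a V (algebraMap A E ϖ) u₀)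
    (Z : chartClosure A E y) (hZ : (Z : E) - u₀ ∈ V.nonunits) :
    Fermat.Agent.H41.SS.IsRegularAt A E ϖ y 𝔪a Z := by
  haveI h𝔪p : 𝔪a.IsPrime := h𝔪.isPrime
  haveI hFR : IsFractionRing ↥(chartClosure A E y) E :=
    Fermat.Agent.H41.SS.chartClosure_isFractionRing A E y hy hfd
  obtain ⟨hBC, -, -⟩ := Fermat.Agent.H89.gaussClosureStatement A E hinj ϖ hϖ y hy
  obtain ⟨hVtop, hVpir, hCV, hϖV⟩ := hreg.vert
  have hBV : ∀ s : ↥(chartClosure A E y), (s : E) ∈ V := fun s => hCV _ (hBC _ s.2)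
  have hthr : Through A E y 𝔪a V := hreg.thru
  have hϖ0 : algebraMap A E ϖ ≠ 0 := hreg.unif.1
  -- `u₀` as an element of `B`
  set U : ↥(chartClosure A E y) := ⟨u₀, hreg.mem₂⟩ with hU
  have hUm : U ∈ 𝔪a := hreg.mem_max₂ hreg.mem₂
  have hUcoe : (U : E) = u₀ := rfl
  -- `D = Z - u₀ ∈ B ∩ 𝔪_V`
  have hDV : ((Z - U : ↥(chartClosure A E y)) : E) ∈ V.nonunits := by
    have : ((Z - U : ↥(chartClosure A E y)) : E) = (Z : E) - u₀ := by
      push_cast; rfl
    rw [this]; exact hZ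
  have hDm : Z - U ∈ 𝔪a := hthr _ hDV
  have hZm : Z ∈ 𝔪a := by
    have := 𝔪a.add_mem hDm hUm
    simpa using this
  -- `c = (Z - u₀)/ϖ ∈ B_𝔪a`
  obtain ⟨b₃, hb₃, hc⟩ := hreg.prin (Z - U) hDV
  -- `u₀ ∉ 𝔪_V`, hence `Z ∉ 𝔪_V`
  have hu₀V : u₀ ∉ V.nonunits :=
    Fermat.Agent.H60.SS2.chart_x2_not_mem_nonunits hy hϖ 𝔪a h𝔪 V hCV hBV hthr hϖV hreg.gen
  have hZV : (Z : E) ∉ V.nonunits := by
    intro h
    apply hu₀V
    have h1 : u₀ = (Z : E) - ((Z : E) - u₀) := by ring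
    rw [h1]
    rw [ValuationSubring.mem_nonunits_iff] at h hZ ⊢
    calc V.valuation ((Z : E) - ((Z : E) - u₀))
        ≤ max (V.valuation (Z : E)) (V.valuation ((Z : E) - u₀)) :=
          Valuation.map_sub _ _ _
      _ < 1 := max_lt h hZ
  have hZval : V.valuation (Z : E) = 1 := by
    have h1 : V.valuation (Z : E) ≤ 1 := (V.valuation_le_one_iff _).2 (hBV Z)
    rw [ValuationSubring.mem_nonunits_iff, not_lt] at hZV
    exact le_antisymm h1 hZV
  refine ⟨hZm, ?_, ?_⟩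
  · -- (REG)
    intro z hz
    obtain ⟨c₁, c₂, ⟨b₁, hb₁, hc₁⟩, ⟨b₂, hb₂, hc₂⟩, hs⟩ := hreg.gen z hz
    refine ⟨b₁ * b₂ * b₃, ?_, b₂ * b₃ * ⟨_, hc₁⟩ - b₁ * ⟨_, hc₂⟩ * ⟨_, hc⟩, b₁ * b₃ * ⟨_, hc₂⟩, ?_⟩
    · intro h
      rcases h𝔪p.mem_or_mem h with h | h
      · rcases h𝔪p.mem_or_mem h with h | h
        · exact hb₁ h
        · exact hb₂ h
      · exact hb₃ h
    · apply Subtype.ext
      push_cast
      rw [hs, hUcoe]
      field_simp
      ring
  · -- (TF)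
    rintro n b ⟨b', hb'⟩
    have hbV : (b : E) ∈ V.nonunits := by
      rw [ValuationSubring.mem_nonunits_iff]
      have h1 : (Z : E) ^ n * (b : E) = algebraMap A E ϖ * (b' : E) := by
        have := congrArg (Subtype.val) hb'
        simpa using this
      have h2 : V.valuation (b : E) = V.valuation (algebraMap A E ϖ) * V.valuation (b' : E) := by
        have := congrArg V.valuation h1
        rwa [map_mul, map_pow, hZval, one_pow, one_mul, map_mul] at this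
      rw [h2]
      have h3 : V.valuation (b' : E) ≤ 1 := (V.valuation_le_one_iff _).2 (hBV b')
      have h4 : V.valuation (algebraMap A E ϖ) < 1 :=
        (ValuationSubring.mem_nonunits_iff _).1 hϖV
      calc V.valuation (algebraMap A E ϖ) * V.valuation (b' : E)
          ≤ V.valuation (algebraMap A E ϖ) * 1 := by gcongr
        _ = V.valuation (algebraMap A E ϖ) := mul_one _
        _ < 1 := h4
    obtain ⟨s, hs, hsb⟩ := hreg.prin b hbV
    refine ⟨s, hs, ⟨_, hsb⟩, ?_⟩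
    apply Subtype.ext
    push_cast
    field_simp

/-- **PA-GLUE** (row 1073). -/
theorem paGlue : Fermat.Agent.H12.SS2.PaGlueStatement := by
  intro A _ _ _ E _ _ _ hinj ϖ hϖ y hy hfd 𝔪a h𝔪 hϖ𝔪 V u₀ hreg Z hZ
  exact Fermat.Agent.H23.SS2.placeExists A E hinj ϖ hϖ y hy hfd 𝔪a h𝔪 hϖ𝔪 Z
    (isRegularAt_of_isRegPoint_of_congr A E hinj ϖ hϖ y hy hfd 𝔪a h𝔪 V u₀ hreg Z hZ)

end Fermat.Agent.H97.SS2
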