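import Fermat.Agent.H97.SS2.PointsChartFinal
import Fermat.Agent.H22.SS2.PointsInv
import Fermat.Agent.H35.SS2.AsmGlue2

/-!
# P-SS2 (S36): (KC-FF) at level `M' q²`, `q` odd, `4 ∣ M'` (helper97)

`newInvariantFF_odd_h4 : NewInvariantFFStatement (M' * q) q`, UNCONDITIONAL, from

* helper35's glue `newInvariantFF_of_halves` (`AsmGlue2`),
* the chart-`x` half of (P) POINTS `asmPointsChart_h4` (helper97, `PointsChartFinal`),
* the chart-`x⁻¹` half of (P) POINTS `asmPointsInv` (helper22, `PointsInv`).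
-/

set_option autoImplicit false
set_option linter.unusedSectionVars false
set_option linter.unusedVariables false
set_option linter.style.haveILetI false

noncomputable section

namespace Fermat.Agent.H97.SS2

open ModularCurve AlgebraicCurve

/-- The chart-`x⁻¹` half of (P) POINTS in the form of helper35's glue. -/
theorem asmPointsInv_h4 (M' q : ℕ) [NeZero M'] [NeZero q] (hq : q.Prime) (hqM : ¬ q ∣ M') :
    Fermat.Agent.H35.SS2.AsmPointsInvStatement M' q M' := by
  intro K₁ _ _ _ OK _ _ _ _ _ hirr hζ Wq hWq x Y₁ Z V20 V11 V02 hG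
  exact Fermat.Agent.H22.SS2.asmPointsInv M' q hq hqM K₁ OK hirr hζ Wq hWq hG

/-- **(KC-FF) at level `M' q²`**, `q` an odd prime, `4 ∣ M'`, `q ∤ M'`: unconditional. -/
theorem newInvariantFF_odd_h4 (M' q : ℕ) [NeZero M'] [NeZero q] (hq : q.Prime) (hq2 : q ≠ 2)
    (h4 : 4 ∣ M') (hqM : ¬ q ∣ M') :
    Fermat.Agent.H11.SS2.NewInvariantFFStatement (M' * q) q :=
  Fermat.Agent.H35.SS2.newInvariantFF_of_halves M' q M' M' hq hq2 h4 hqM
    (Nat.pos_of_ne_zero (NeZero.ne M')) (Nat.pos_of_ne_zero (NeZero.ne M')) hqM hqM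
    (asmPointsChart_h4 M' q hq hq2 h4 hqM) (asmPointsInv_h4 M' q hq hqM)

end Fermat.Agent.H97.SS2
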