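import Fermat.Agent.H97.SS2.PointsModel
import Fermat.Agent.H35.SS2.AsmGlue2
import Fermat.Agent.H93.SS2.KronRelModel
import Fermat.Agent.H93.SS2.VertIffU
import Fermat.Agent.H12.SS2.Reg11Model
import Fermat.Agent.H12.SS2.Reg11PkgProof
import Fermat.Agent.H95.SS2.SimpleY
import Fermat.Agent.H7.SS2.RegLH4Final
import Fermat.Agent.H4.SS2.ModelVal3B
import Fermat.Agent.H98.SS.GoodBasisH4

/-!
# P-SS2 (S36), row 905 (b) ASM, block (P) POINTS, chart `x = j` (helper97): FINAL, `q` odd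

`asmPointsChart_h4 : AsmPointsChartStatement M' q M'` (helper35's exact target, `AsmGlue2`),
UNCONDITIONAL for `q` an odd prime, `4 ∣ M'`, `q ∤ M'`.

Plugged into `asmPt_model_chart` (`PointsModel`):

* the level-`L` regularity in the chart `j` : helper7 `regLChartR_of` + `smoothGenR_h4` +
  `nodeGenR_h4` (needs `μ_{M'} ⊆ K₁`);
* the Kronecker relations : helper93 `modelKronRel4` on helper86's `modelVal3Inputs`;
* the points on `V₁₁` only : helper12 `reg11_model` with the norm package `reg11Pkg` on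
  helper95's `simpleY`, the classification `hcls_model_chart`, `Z ∈ B(j)` from `modelKronRel4`.
-/

set_option autoImplicit false
set_option linter.unusedSectionVars false
set_option linter.unusedVariables false
set_option linter.style.haveILetI false
set_option maxHeartbeats 1600000
set_option synthInstance.maxHeartbeats 400000

noncomputable section

namespace Fermat.Agent.H97.SS2

open ModularCurve AlgebraicCurve
open Fermat.Agent.H22.KL Fermat.Agent.H11.SS2 Fermat.Agent.H7.SS2 Fermat.Agent.H19.SS2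
open Fermat.Agent.H82.SS Fermat.Agent.H86.SS2 Fermat.Agent.H8.SS

section Odd

variable (M' q : ℕ) [NeZero M'] [NeZero q]
  (K₁ : Type) [Field K₁] [Algebra ℚ K₁] [FiniteDimensional ℚ K₁]
  (A₀ : Type) [CommRing A₀] [IsDomain A₀] [IsDiscreteValuationRing A₀]
  [Algebra A₀ K₁] [IsFractionRing A₀ K₁]
  [Algebra A₀ (ModelField K₁ (M' * q))] [IsScalarTower A₀ K₁ (ModelField K₁ (M' * q))]
  [Algebra A₀ (ModelField K₁ (M' * q * q))]
  [IsScalarTower A₀ K₁ (ModelField K₁ (M' * q * q))]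

/-- **(P), chart `j`, `q` odd, `4 ∣ M'`**: `AsmPt` at every closed point of the special fibre
in the chart `x = j`, over a base containing a primitive `M'`-th root of unity. -/
theorem asmPt_chart_h4 (hq : q.Prime) (hq2 : q ≠ 2) (h4 : 4 ∣ M') (hqM : ¬ q ∣ M')
    (hirr : Irreducible ((q : ℕ) : A₀)) (hζ : ∃ ζ : K₁, IsPrimitiveRoot ζ M')
    (W : ModelField K₁ (M' * q) ≃ₐ[K₁] ModelField K₁ (M' * q))
    (hW : IsAtkinLehnerModel K₁ M' q W)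
    (x : ModelField K₁ (M' * q * q)) (hx : (x : LaurentSeries K₁) = jqModC K₁)
    (X₁ Y₁ : ModelField K₁ (M' * q)) (Z : ModelField K₁ (M' * q * q))
    (hX₁ : (X₁ : LaurentSeries K₁) = sX1 K₁ q) (hY₁ : (Y₁ : LaurentSeries K₁) = sY1 K₁ q)
    (hZs : (Z : LaurentSeries K₁) = sZ K₁ q)
    (V₂₀ V₁₁ V₀₂ : ValuationSubring (ModelField K₁ (M' * q * q)))
    (hval : Val3Data (heckeAlphaBar K₁ (M' * q) q).toRingHom
      (heckeBetaBar K₁ (M' * q) q).toRingHom (vInf K₁ A₀ (M' * q))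
      (vZero K₁ A₀ (M' * q) W) V₂₀ V₁₁ V₀₂ q Y₁ Z)
    (hV20 : IsVertical A₀ (ModelField K₁ (M' * q * q)) ((q : ℕ) : A₀) x V₂₀)
    (hV11 : IsVertical A₀ (ModelField K₁ (M' * q * q)) ((q : ℕ) : A₀) x V₁₁)
    (hV02 : IsVertical A₀ (ModelField K₁ (M' * q * q)) ((q : ℕ) : A₀) x V₀₂)
    (hgauss : ∀ z : ModelField K₁ (M' * q * q), z ∈ V₂₀ → z ∈ V₁₁ → z ∈ V₀₂ →
      z ∈ gaussClosure A₀ (ModelField K₁ (M' * q * q)) ((q : ℕ) : A₀) x)
    (hfin : @FiniteDimensional (ModelField K₁ (M' * q)) (ModelField K₁ (M' * q * q)) _ _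
      (@Algebra.toModule (ModelField K₁ (M' * q)) (ModelField K₁ (M' * q * q)) _ _
        (heckeAlphaBar K₁ (M' * q) q).toRingHom.toAlgebra))
    (𝔪 : Ideal (chartClosure A₀ (ModelField K₁ (M' * q * q)) x)) (h𝔪 : 𝔪.IsMaximal)
    (hq𝔪 : algebraMap A₀ (chartClosure A₀ (ModelField K₁ (M' * q * q)) x)
      ((q : ℕ) : A₀) ∈ 𝔪) :
    AsmPt A₀ (ModelField K₁ (M' * q)) (ModelField K₁ (M' * q * q)) q
      (heckeAlphaBar K₁ (M' * q) q).toRingHom (heckeBetaBar K₁ (M' * q) q).toRingHom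
      (vInf K₁ A₀ (M' * q)) (vZero K₁ A₀ (M' * q) W) V₂₀ V₁₁ V₀₂ x 𝔪 := by
  classical
  haveI : Fact q.Prime := ⟨hq⟩
  -- the chart `j` of level `M' q`
  have hjq : jq ∈ modularFunctionFieldFull (M' * q) := by
    have h1 := jqd_mem_full (M' * q) (one_dvd (M' * q))
    rwa [qExpand_one_apply] at h1
  let x' : ModelField K₁ (M' * q) := ⟨coeffEmb K₁ jq, coeffEmb_mem_laurentBaseChange K₁ hjq⟩
  have hx'c : (x' : LaurentSeries K₁) = coeffEmb K₁ jq := rfl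
  have hx' : (x' : LaurentSeries K₁) = jqModC K₁ := by
    rw [hx'c, Fermat.Agent.H35.SS2.ss2_coeffEmb_jq]
  have hxc : (x : LaurentSeries K₁) = coeffEmb K₁ jq := by
    rw [Fermat.Agent.H35.SS2.ss2_coeffEmb_jq]; exact hx
  have hαx : (heckeAlphaBar K₁ (M' * q) q).toRingHom x' = x :=
    Fermat.Agent.H35.SS2.ss2_alpha_chart (M' * q) q K₁ x x' hx hx'
  -- the Hauptmodul
  let H₀ : ModelField K₁ M' := ⟨h4S K₁, h4S_mem_laurentBaseChange K₁ M' h4⟩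
  let H : ModelField K₁ (M' * q) := heckeAlphaBar K₁ M' q H₀
  let Hq : ModelField K₁ (M' * q) := heckeBetaBar K₁ M' q H₀
  have hHs : (H : LaurentSeries K₁) = h4S K₁ := by
    show ((heckeAlphaBar K₁ M' q H₀ : ModelField K₁ (M' * q)) : LaurentSeries K₁) = _
    rw [coe_heckeAlphaBar]
  have hHqs : (Hq : LaurentSeries K₁) = qExpand K₁ q (h4S K₁) := by
    show ((heckeBetaBar K₁ M' q H₀ : ModelField K₁ (M' * q)) : LaurentSeries K₁) = _
    rw [coe_heckeBetaBar]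
  have hH : (H : LaurentSeries K₁) = coeffEmb K₁ (h4S ℚ) := by
    rw [hHs, Fermat.Agent.H98.SS.coeffEmb_h4S]
  have hHq : (Hq : LaurentSeries K₁) = qExpand K₁ q (coeffEmb K₁ (h4S ℚ)) := by
    rw [hHqs, Fermat.Agent.H98.SS.coeffEmb_h4S]
  have eX : X₁ = Hq - H ^ q := by
    apply Subtype.ext
    rw [hX₁]
    show sX1 K₁ q = (Hq : LaurentSeries K₁) - (H : LaurentSeries K₁) ^ q
    rw [hHs, hHqs]
    rfl
  have eY : Y₁ = H - Hq ^ q := by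
    apply Subtype.ext
    rw [hY₁]
    show sY1 K₁ q = (H : LaurentSeries K₁) - (Hq : LaurentSeries K₁) ^ q
    rw [hHs, hHqs]
    rfl
  -- the regularity of level `M' q` in the chart `j`
  have hChart : RegLChartRStatement M' q (h4S ℚ) M' :=
    regLChartR_of M' q hq hqM h4Z M' (fun K₁ _ _ => h4S_mem_laurentBaseChange K₁ M' h4)
      (smoothGenR_h4 M' q hq hq2 hqM h4 M') (nodeGenR_h4 M' q hq hq2 hqM h4 M')
  have hregL : ∀ 𝔪' : Ideal (chartClosure A₀ (ModelField K₁ (M' * q)) x'), 𝔪'.IsMaximal →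
      algebraMap A₀ (chartClosure A₀ (ModelField K₁ (M' * q)) x') ((q : ℕ) : A₀) ∈ 𝔪' →
      RegLAtOne A₀ (ModelField K₁ (M' * q)) ((q : ℕ) : A₀) x' 𝔪'
        (vInf K₁ A₀ (M' * q)) (vZero K₁ A₀ (M' * q) W) X₁ Y₁ := by
    intro 𝔪' h𝔪' hq𝔪'
    rw [eX, eY]
    exact hChart K₁ A₀ hirr hζ x' hx'c W hW H Hq hH hHq 𝔪' h𝔪' hq𝔪'
  -- the Kronecker relations
  obtain ⟨X₁', Y₁', Z', Pα, Pβ, hX₁', hY₁', hZ', hin⟩ :=
    modelVal3Inputs (K₁ := K₁) (A₀ := A₀) (M' := M') (q := q)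
      (Fermat.Agent.H73.Kron2.modelKron2 M' q (Fermat.Agent.H6.SS2.modelNormZ q))
      (Fermat.Agent.H90.SS2Red.modelRed q) (Fermat.Agent.H79.SS2.al2Exists M' q)
      hq2 h4 hqM hirr W hW
  have e1 : X₁' = X₁ := Subtype.ext (hX₁'.trans hX₁.symm)
  have e2 : Y₁' = Y₁ := Subtype.ext (hY₁'.trans hY₁.symm)
  have e3 : Z' = Z := Subtype.ext (hZ'.trans hZs.symm)
  rw [e1, e2, e3] at hin
  obtain ⟨hZB, hX₂, Gα, Gβ, hGα, hGβ, hrelα, hrelβ⟩ :=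
    Fermat.Agent.H93.SS2.modelKronRel4 M' q K₁ A₀ hq hq2 h4 hqM
      (Fermat.Agent.H93.SS2.modelChartEqU M' q) hirr W hW X₁ Y₁ Z Pα Pβ hX₁ hY₁ hin x hxc
      V₂₀ V₁₁ V₀₂ hval hgauss
  -- the classification
  have hcls := hcls_model_chart M' q K₁ A₀ hq hqM hirr x' hx' x hx W hW V₂₀ V₁₁ V₀₂ X₁ Y₁ Z
    hval hV20 hV11 hV02 hgauss hregL hX₂ hZB Gα Gβ hGα hrelα hGβ hrelβ
  -- the norm package
  have hpkg : Fermat.Agent.H12.SS2.Reg11PkgStatement M' q :=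
    Fermat.Agent.H12.SS2.reg11Pkg M' q h4 hq hq2 hqM
      (Fermat.Agent.H95.SS2.simpleY M' q hq hq2 hqM h4)
  have hT' := pm_transcendental K₁ A₀ (M' * q) x' hx'
  have hT := pm_transcendental K₁ A₀ (M' * q * q) x hx
  have hfd' := pm_finite K₁ A₀ (M' * q) x' hx'
  have hfd := pm_finite K₁ A₀ (M' * q * q) x hx
  refine asmPt_model_chart M' q K₁ A₀ hq hqM hirr x' hx' x hx W hW V₂₀ V₁₁ V₀₂ X₁ Y₁ Z hval
    hV20 hV11 hV02 hgauss hregL hX₂ hZB Gα Gβ hGα hrelα hGβ hrelβ 𝔪 h𝔪 hq𝔪 ?_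
  intro 𝔪α 𝔪β h𝔪α h𝔪β hLα hLβ hT11 hN20 hN02 hα1 hα2 hβ2 hβ1
  obtain ⟨U', hreg'⟩ := pm_regPoint_of_regLAtOne
    (hregL 𝔪α h𝔪α (pm_pi_mem_of_through
      (Fermat.Agent.H7.SS2.isVertical_vInf M' q K₁ A₀ hirr.not_isUnit _ hirr x' hx'c W hW)
      hα1)) hα1 hα2
  exact Fermat.Agent.H12.SS2.reg11_model M' q hpkg K₁ A₀ hirr hfin x' hx'c hT' hfd' x hαx hT hfd
    W hW (heckeBetaBar K₁ (M' * q) q).toRingHom Z hZs Y₁ hY₁ V₂₀ V₁₁ V₀₂ hval hV20 hV11 hV02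
    hgauss hcls hZB
    (Fermat.Agent.H99.SS2.modelFrac_vInf M' q K₁ A₀ hq hqM hirr.not_isUnit x' hx'c W hW)
    𝔪 h𝔪 hq𝔪 hT11 (pm_exists_of_not_through hN20) (pm_exists_of_not_through hN02)
    𝔪α h𝔪α hLα hα2 U' hreg'

end Odd

/-- **(P) POINTS, chart `x = j`, `q` odd** : helper35's target `AsmPointsChartStatement`,
unconditional (`R = M'`). -/
theorem asmPointsChart_h4 (M' q : ℕ) [NeZero M'] [NeZero q] (hq : q.Prime) (hq2 : q ≠ 2)
    (h4 : 4 ∣ M') (hqM : ¬ q ∣ M') :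
    Fermat.Agent.H35.SS2.AsmPointsChartStatement M' q M' := by
  intro K₁ _ _ _ OK _ _ _ _ _ hirr hζ Wq hWq x X₁ Y₁ Z V11 V02 hx hX₁ hY₁ hZs hval hG 𝔪 h𝔪 hq𝔪
  exact asmPt_chart_h4 M' q K₁ ↥OK hq hq2 h4 hqM hirr hζ Wq hWq x hx X₁ Y₁ Z hX₁ hY₁ hZs
    (vInf K₁ ↥OK (M' * q * q)) V11 V02 hval hG.vert20 hG.vert11 hG.vert02
    (fun z h1 h2 h3 => (hG.gauss z).mpr ⟨h1, h2, h3⟩) hG.degα.1 𝔪 h𝔪 hq𝔪

end Fermat.Agent.H97.SS2
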