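import Fermat.Agent.H99.SS2.AsmPt
import Fermat.Agent.H99.SS2.FracL
import Fermat.Agent.H35.SS2.AsmDefs
import Fermat.Agent.H35.SS2.ChartBeta
import Fermat.Agent.H4.SS.Hartogs
import Fermat.Agent.H70.SS.AsmJ
import Fermat.Agent.H7.SS2.RegLFinal

/-!
# P-SS2 (S36), row 905 (b) ASM, block (P) POINTS (helper97): the model-level assembly

Level `L = M' q`, `F = ModelField K₁ (M' q)`, `E₀ = ModelField K₁ (M' q q)`,
`α = heckeAlphaBar`, `β = heckeBetaBar`, `O₁ = vInf`, `O₂ = vZero W` (helper7), base `A₀` a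
discrete valuation ring of `K₁` with uniformiser `q`; charts `x = j` and `x⁻¹` of `E₀`, `x' = j`
and `x'⁻¹` of `F`.

The abstract per-point theorems of helper99 (`asmPt_val3_below`, `asmPt_val3_cusp_below`) are
instantiated at the model: the generic inputs (LOCAL HARTOGS, injectivity, transcendence,
finiteness over the chart field, chart equalities, `hfrac`) are plugged in, the remaining
hypotheses are the concrete rows:

* the keystone `Val3Data` + the three `IsVertical` + `hgauss` (block (G));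
* the level-`L` regularity `RegLAtOne` (chart `j`), `RegLAt` (chart `j⁻¹`) and "the cusps of
  level `L` are not nodes" (helper7, row 900);
* the Kronecker relations (helper93);
* `β` at the cusps (helper99);
* the regularity at the points lying on `V₁₁` only (REG11 helper12 / CUSP11 helper22 / q = 2
  helper60), as the hypotheses `h11`, `h11c`.

Main statements:

* `asmPt_model_chart` : `AsmPt` at every closed point of the chart `x`;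
* `hcls_model_chart` : a closed point of the chart `x` on `V₂₀` and `V₁₁` is on `V₀₂`
  (the hypothesis `hcls` of `reg11_model`);
* `asmPt_model_cusp` : `AsmPt` at the cusps of the chart `x⁻¹`;
* `asmPoints_of_rows` : `Fermat.Agent.H35.SS2.AsmPoints`.
-/

set_option autoImplicit false
set_option linter.unusedSectionVars false
set_option linter.unusedVariables false
set_option linter.style.haveILetI false

noncomputable section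

namespace Fermat.Agent.H97.SS2

open ModularCurve AlgebraicCurve
open Fermat.Agent.H22.KL Fermat.Agent.H11.SS2 Fermat.Agent.H7.SS2 Fermat.Agent.H19.SS2
open Fermat.Agent.H82.SS

section Abstract

variable {A : Type} [CommRing A] {E : Type} [Field E] [Algebra A E]

/-- A vertical valuation through `𝔪` forces `ϖ ∈ 𝔪`. -/
theorem pm_pi_mem_of_through {ϖ : A} {y : E} {𝔪 : Ideal (chartClosure A E y)}
    {V : ValuationSubring E} (hV : IsVertical A E ϖ y V) (hT : Through A E y 𝔪 V) :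
    algebraMap A (chartClosure A E y) ϖ ∈ 𝔪 :=
  hT _ hV.2.2.2

/-- `¬ Through` in the existential form. -/
theorem pm_exists_of_not_through {y : E} {𝔪 : Ideal (chartClosure A E y)}
    {V : ValuationSubring E} (h : ¬ Through A E y 𝔪 V) :
    ∃ s : chartClosure A E y, (s : E) ∈ V.nonunits ∧ s ∉ 𝔪 := by
  by_contra hne
  apply h
  intro s hs
  by_contra hs'
  exact hne ⟨s, hs, hs'⟩

/-- The smooth alternative of `RegLAtOne` at a point on `V₁` only. -/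
theorem pm_regPoint_of_regLAtOne {ϖ : A} {y : E} {𝔪 : Ideal (chartClosure A E y)}
    {V₁ V₂ : ValuationSubring E} {X Y : E} (h : RegLAtOne A E ϖ y 𝔪 V₁ V₂ X Y)
    (h1 : Through A E y 𝔪 V₁) (h2 : ¬ Through A E y 𝔪 V₂) :
    ∃ U : E, IsRegPoint A E ϖ y 𝔪 V₁ (algebraMap A E ϖ) U := by
  rcases h with ⟨-, h⟩ | ⟨h, -⟩ | ⟨-, h, -⟩
  · exact h
  · exact absurd h1 h
  · exact absurd h.thru h2

/-- The smooth alternative of `RegLAt` at a point on `V₁` only. -/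
theorem pm_regPoint_of_regLAt {ϖ : A} {y : E} {𝔪 : Ideal (chartClosure A E y)}
    {V₁ V₂ : ValuationSubring E} {X Y : E} (h : RegLAt A E ϖ y 𝔪 V₁ V₂ X Y)
    (h1 : Through A E y 𝔪 V₁) (h2 : ¬ Through A E y 𝔪 V₂) :
    ∃ U : E, IsRegPoint A E ϖ y 𝔪 V₁ (algebraMap A E ϖ) U := by
  rcases h with ⟨-, h⟩ | ⟨h, -⟩ | ⟨e, -, -, h, -⟩
  · exact h
  · exact absurd h1 h
  · exact absurd h.thru h2

/-- `AsmPt` at a point on `V₂₀` and `V₁₁` : the point is on `V₀₂`. -/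
theorem pm_through_of_asmPt {F : Type} [Field F] [Algebra A F] {q : ℕ} {α β : F →+* E}
    {O₁ O₂ : ValuationSubring F} {V₂₀ V₁₁ V₀₂ : ValuationSubring E} {y : E}
    {𝔪 : Ideal (chartClosure A E y)}
    (h : AsmPt A F E q α β O₁ O₂ V₂₀ V₁₁ V₀₂ y 𝔪)
    (h20 : Through A E y 𝔪 V₂₀) (h11 : Through A E y 𝔪 V₁₁) : Through A E y 𝔪 V₀₂ := by
  rcases h with ⟨h3 | h3, -, -⟩ | ⟨h, -, -⟩ | ⟨h, -, -⟩ | ⟨h, -, -⟩
  · obtain ⟨z₁, z₂, h02, -, -⟩ := h3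
    exact h02.thru
  · obtain ⟨z₁, z₂, -, -, h02⟩ := h3
    exact h02.thru
  · exact absurd h11 h
  · exact absurd h20 h
  · exact absurd h20 h

end Abstract

section Model

variable (M' q : ℕ) [NeZero M'] [NeZero q]
  (K₁ : Type) [Field K₁] [Algebra ℚ K₁] [FiniteDimensional ℚ K₁]
  (A₀ : Type) [CommRing A₀] [IsDomain A₀] [IsDiscreteValuationRing A₀]
  [Algebra A₀ K₁] [IsFractionRing A₀ K₁]
  [Algebra A₀ (ModelField K₁ (M' * q))] [IsScalarTower A₀ K₁ (ModelField K₁ (M' * q))]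
  [Algebra A₀ (ModelField K₁ (M' * q * q))]
  [IsScalarTower A₀ K₁ (ModelField K₁ (M' * q * q))]

/-- the structure map `A₀ → ModelField K₁ N` is injective -/
theorem pm_algebraMap_injective (N : ℕ) [Algebra A₀ (ModelField K₁ N)]
    [IsScalarTower A₀ K₁ (ModelField K₁ N)] :
    Function.Injective (algebraMap A₀ (ModelField K₁ N)) := by
  rw [IsScalarTower.algebraMap_eq A₀ K₁ (ModelField K₁ N)]
  exact (algebraMap K₁ (ModelField K₁ N)).injective.comp (IsFractionRing.injective A₀ K₁)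

/-- `α` is `A₀`-linear -/
theorem pm_alpha_commutes (a : A₀) :
    (heckeAlphaBar K₁ (M' * q) q).toRingHom (algebraMap A₀ (ModelField K₁ (M' * q)) a) =
      algebraMap A₀ (ModelField K₁ (M' * q * q)) a := by
  rw [IsScalarTower.algebraMap_apply A₀ K₁ (ModelField K₁ (M' * q)),
    IsScalarTower.algebraMap_apply A₀ K₁ (ModelField K₁ (M' * q * q))]
  exact (heckeAlphaBar K₁ (M' * q) q).commutes _

/-- `β` is `A₀`-linear -/
theorem pm_beta_commutes (a : A₀) :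
    (heckeBetaBar K₁ (M' * q) q).toRingHom (algebraMap A₀ (ModelField K₁ (M' * q)) a) =
      algebraMap A₀ (ModelField K₁ (M' * q * q)) a := by
  rw [IsScalarTower.algebraMap_apply A₀ K₁ (ModelField K₁ (M' * q)),
    IsScalarTower.algebraMap_apply A₀ K₁ (ModelField K₁ (M' * q * q))]
  exact (heckeBetaBar K₁ (M' * q) q).commutes _

/-- the chart `j` is transcendental -/
theorem pm_transcendental (N : ℕ) [NeZero N] [Algebra A₀ (ModelField K₁ N)]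
    [IsScalarTower A₀ K₁ (ModelField K₁ N)] (x : ModelField K₁ N)
    (hx : (x : LaurentSeries K₁) = jqModC K₁) : Transcendental A₀ x :=
  Fermat.Agent.H58.modelTranscendental_jq N K₁ A₀ x
    (by rw [Fermat.Agent.H35.SS2.ss2_coeffEmb_jq]; exact hx)

/-- the model field is finite over the chart field of `j` -/
theorem pm_finite (N : ℕ) [NeZero N] [Algebra A₀ (ModelField K₁ N)]
    [IsScalarTower A₀ K₁ (ModelField K₁ N)] (x : ModelField K₁ N)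
    (hx : (x : LaurentSeries K₁) = jqModC K₁) :
    ∃ d : ℕ, Nonempty (Module.Basis (Fin d) (chartField A₀ (ModelField K₁ N) x)
      (ModelField K₁ N)) :=
  Fermat.Agent.H70.SS.modelFinite_jq N K₁ A₀ x
    (by rw [Fermat.Agent.H35.SS2.ss2_coeffEmb_jq]; exact hx)

/-- the model field is finite over the chart field of `j⁻¹` -/
theorem pm_finite_inv (N : ℕ) [NeZero N] [Algebra A₀ (ModelField K₁ N)]
    [IsScalarTower A₀ K₁ (ModelField K₁ N)] (x : ModelField K₁ N)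
    (hx : (x : LaurentSeries K₁) = jqModC K₁) :
    ∃ d : ℕ, Nonempty (Module.Basis (Fin d) (chartField A₀ (ModelField K₁ N) x⁻¹)
      (ModelField K₁ N)) := by
  rw [Fermat.Agent.H89.klg_chartField_inv]
  exact pm_finite K₁ A₀ N x hx

/-- **(P), chart `j`**: `AsmPt` at a closed point `𝔪 ∋ q` of the chart `x = j` of level
`M' q q`, from the keystone, the level-`L` regularity (chart `j`), the Kronecker relations and
the regularity at the points on `V₁₁` only. -/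
theorem asmPt_model_chart (hq : q.Prime) (hqM : ¬ q ∣ M') (hirr : Irreducible ((q : ℕ) : A₀))
    (x' : ModelField K₁ (M' * q)) (hx' : (x' : LaurentSeries K₁) = jqModC K₁)
    (x : ModelField K₁ (M' * q * q)) (hx : (x : LaurentSeries K₁) = jqModC K₁)
    (W : ModelField K₁ (M' * q) ≃ₐ[K₁] ModelField K₁ (M' * q))
    (hW : IsAtkinLehnerModel K₁ M' q W)
    (V₂₀ V₁₁ V₀₂ : ValuationSubring (ModelField K₁ (M' * q * q)))
    (X₁ Y₁ : ModelField K₁ (M' * q)) (Z : ModelField K₁ (M' * q * q))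
    (hval : Val3Data (heckeAlphaBar K₁ (M' * q) q).toRingHom
      (heckeBetaBar K₁ (M' * q) q).toRingHom (vInf K₁ A₀ (M' * q))
      (vZero K₁ A₀ (M' * q) W) V₂₀ V₁₁ V₀₂ q Y₁ Z)
    (hV20 : IsVertical A₀ (ModelField K₁ (M' * q * q)) ((q : ℕ) : A₀) x V₂₀)
    (hV11 : IsVertical A₀ (ModelField K₁ (M' * q * q)) ((q : ℕ) : A₀) x V₁₁)
    (hV02 : IsVertical A₀ (ModelField K₁ (M' * q * q)) ((q : ℕ) : A₀) x V₀₂)
    (hgauss : ∀ z : ModelField K₁ (M' * q * q), z ∈ V₂₀ → z ∈ V₁₁ → z ∈ V₀₂ →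
      z ∈ gaussClosure A₀ (ModelField K₁ (M' * q * q)) ((q : ℕ) : A₀) x)
    (hregL : ∀ 𝔪' : Ideal (chartClosure A₀ (ModelField K₁ (M' * q)) x'), 𝔪'.IsMaximal →
      algebraMap A₀ (chartClosure A₀ (ModelField K₁ (M' * q)) x') ((q : ℕ) : A₀) ∈ 𝔪' →
      RegLAtOne A₀ (ModelField K₁ (M' * q)) ((q : ℕ) : A₀) x' 𝔪'
        (vInf K₁ A₀ (M' * q)) (vZero K₁ A₀ (M' * q) W) X₁ Y₁)
    (hX₂ : (heckeBetaBar K₁ (M' * q) q).toRingHom X₁ =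
      Z + (heckeAlphaBar K₁ (M' * q) q).toRingHom Y₁)
    (hZ : Z ∈ chartClosure A₀ (ModelField K₁ (M' * q * q)) x)
    (Gα Gβ : ModelField K₁ (M' * q * q))
    (hGα : ∀ 𝔫 : Ideal (chartClosure A₀ (ModelField K₁ (M' * q * q)) x), 𝔫.IsMaximal →
      algebraMap A₀ (chartClosure A₀ (ModelField K₁ (M' * q * q)) x) ((q : ℕ) : A₀) ∈ 𝔫 →
      Fermat.Agent.H11.SS2.InLoc A₀ (ModelField K₁ (M' * q * q)) x 𝔫 Gα)
    (hrelα : Z ^ (q - 1) * (Z + (heckeAlphaBar K₁ (M' * q) q).toRingHom Y₁) -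
      (heckeAlphaBar K₁ (M' * q) q).toRingHom X₁ +
      algebraMap A₀ (ModelField K₁ (M' * q * q)) ((q : ℕ) : A₀) * Gα = 0)
    (hGβ : ∀ 𝔫 : Ideal (chartClosure A₀ (ModelField K₁ (M' * q * q)) x), 𝔫.IsMaximal →
      algebraMap A₀ (chartClosure A₀ (ModelField K₁ (M' * q * q)) x) ((q : ℕ) : A₀) ∈ 𝔫 →
      Fermat.Agent.H11.SS2.InLoc A₀ (ModelField K₁ (M' * q * q)) x 𝔫 Gβ)
    (hrelβ : (-Z) ^ (q - 1) * (-Z + (heckeBetaBar K₁ (M' * q) q).toRingHom X₁) -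
      (heckeBetaBar K₁ (M' * q) q).toRingHom Y₁ +
      algebraMap A₀ (ModelField K₁ (M' * q * q)) ((q : ℕ) : A₀) * Gβ = 0)
    (𝔪 : Ideal (chartClosure A₀ (ModelField K₁ (M' * q * q)) x)) (h𝔪 : 𝔪.IsMaximal)
    (hq𝔪 : algebraMap A₀ (chartClosure A₀ (ModelField K₁ (M' * q * q)) x) ((q : ℕ) : A₀) ∈ 𝔪)
    (h11 : ∀ 𝔪α 𝔪β : Ideal (chartClosure A₀ (ModelField K₁ (M' * q)) x'),
      𝔪α.IsMaximal → 𝔪β.IsMaximal →
      Fermat.Agent.H99.SS2.LiesOverAlong A₀ (ModelField K₁ (M' * q * q))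
        (ModelField K₁ (M' * q)) (heckeAlphaBar K₁ (M' * q) q).toRingHom x' x 𝔪α 𝔪 →
      Fermat.Agent.H99.SS2.LiesOverAlong A₀ (ModelField K₁ (M' * q * q))
        (ModelField K₁ (M' * q)) (heckeBetaBar K₁ (M' * q) q).toRingHom x' x 𝔪β 𝔪 →
      Through A₀ (ModelField K₁ (M' * q * q)) x 𝔪 V₁₁ →
      ¬ Through A₀ (ModelField K₁ (M' * q * q)) x 𝔪 V₂₀ →
      ¬ Through A₀ (ModelField K₁ (M' * q * q)) x 𝔪 V₀₂ →
      Through A₀ (ModelField K₁ (M' * q)) x' 𝔪α (vInf K₁ A₀ (M' * q)) →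
      ¬ Through A₀ (ModelField K₁ (M' * q)) x' 𝔪α (vZero K₁ A₀ (M' * q) W) →
      Through A₀ (ModelField K₁ (M' * q)) x' 𝔪β (vZero K₁ A₀ (M' * q) W) →
      ¬ Through A₀ (ModelField K₁ (M' * q)) x' 𝔪β (vInf K₁ A₀ (M' * q)) →
      ∃ x₁ x₂ : ModelField K₁ (M' * q * q),
        IsRegPoint A₀ (ModelField K₁ (M' * q * q)) ((q : ℕ) : A₀) x 𝔪 V₁₁ x₁ x₂) :
    AsmPt A₀ (ModelField K₁ (M' * q)) (ModelField K₁ (M' * q * q)) q
      (heckeAlphaBar K₁ (M' * q) q).toRingHom (heckeBetaBar K₁ (M' * q) q).toRingHom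
      (vInf K₁ A₀ (M' * q)) (vZero K₁ A₀ (M' * q) W) V₂₀ V₁₁ V₀₂ x 𝔪 := by
  haveI : CharZero K₁ := algebraRat.charZero K₁
  haveI : CharZero (ModelField K₁ (M' * q)) :=
    charZero_of_injective_algebraMap (algebraMap K₁ (ModelField K₁ (M' * q))).injective
  haveI : CharZero (ModelField K₁ (M' * q * q)) :=
    charZero_of_injective_algebraMap (algebraMap K₁ (ModelField K₁ (M' * q * q))).injective
  have hx'c : (x' : LaurentSeries K₁) = coeffEmb K₁ jq := by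
    rw [Fermat.Agent.H35.SS2.ss2_coeffEmb_jq]; exact hx'
  have hαx : (heckeAlphaBar K₁ (M' * q) q).toRingHom x' = x :=
    Fermat.Agent.H35.SS2.ss2_alpha_chart (M' * q) q K₁ x x' hx hx'
  have hcα : chartClosure A₀ (ModelField K₁ (M' * q * q))
      ((heckeAlphaBar K₁ (M' * q) q).toRingHom x') =
      chartClosure A₀ (ModelField K₁ (M' * q * q)) x := by rw [hαx]
  have hcβ : chartClosure A₀ (ModelField K₁ (M' * q * q))
      ((heckeBetaBar K₁ (M' * q) q).toRingHom x') =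
      chartClosure A₀ (ModelField K₁ (M' * q * q)) x :=
    Fermat.Agent.H35.SS2.ss2_chartClosure_beta_eq (M' * q) q hq K₁ A₀ x x' hx hx'
  exact Fermat.Agent.H99.SS2.asmPt_val3_below Fermat.Agent.H4.SS.localHartogs
    (pm_algebraMap_injective K₁ A₀ (M' * q)) (pm_algebraMap_injective K₁ A₀ (M' * q * q))
    q hq.two_le hirr (pm_transcendental K₁ A₀ (M' * q) x' hx') (pm_finite K₁ A₀ (M' * q) x' hx')
    (pm_transcendental K₁ A₀ (M' * q * q) x hx) (pm_finite K₁ A₀ (M' * q * q) x hx)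
    (heckeAlphaBar K₁ (M' * q) q).toRingHom (heckeBetaBar K₁ (M' * q) q).toRingHom
    (pm_alpha_commutes M' q K₁ A₀) (pm_beta_commutes M' q K₁ A₀) hcα hcβ
    (vInf K₁ A₀ (M' * q)) (vZero K₁ A₀ (M' * q) W) V₂₀ V₁₁ V₀₂ X₁ Y₁ Z hval hV20 hV11 hV02
    hgauss
    (Fermat.Agent.H99.SS2.modelFrac_vInf M' q K₁ A₀ hq hqM hirr.not_isUnit x' hx'c W hW)
    (Fermat.Agent.H99.SS2.modelFrac_vZero M' q K₁ A₀ hq hqM hirr.not_isUnit x' hx'c W hW)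
    hregL hX₂ hZ Gα Gβ hGα hrelα hGβ hrelβ 𝔪 h𝔪 hq𝔪 h11

/-- **The classification `hcls`** (hypothesis of `reg11_model`): a closed point of the chart
`x = j` lying on `V₂₀` and on `V₁₁` lies on `V₀₂`. -/
theorem hcls_model_chart (hq : q.Prime) (hqM : ¬ q ∣ M') (hirr : Irreducible ((q : ℕ) : A₀))
    (x' : ModelField K₁ (M' * q)) (hx' : (x' : LaurentSeries K₁) = jqModC K₁)
    (x : ModelField K₁ (M' * q * q)) (hx : (x : LaurentSeries K₁) = jqModC K₁)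
    (W : ModelField K₁ (M' * q) ≃ₐ[K₁] ModelField K₁ (M' * q))
    (hW : IsAtkinLehnerModel K₁ M' q W)
    (V₂₀ V₁₁ V₀₂ : ValuationSubring (ModelField K₁ (M' * q * q)))
    (X₁ Y₁ : ModelField K₁ (M' * q)) (Z : ModelField K₁ (M' * q * q))
    (hval : Val3Data (heckeAlphaBar K₁ (M' * q) q).toRingHom
      (heckeBetaBar K₁ (M' * q) q).toRingHom (vInf K₁ A₀ (M' * q))
      (vZero K₁ A₀ (M' * q) W) V₂₀ V₁₁ V₀₂ q Y₁ Z)
    (hV20 : IsVertical A₀ (ModelField K₁ (M' * q * q)) ((q : ℕ) : A₀) x V₂₀)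
    (hV11 : IsVertical A₀ (ModelField K₁ (M' * q * q)) ((q : ℕ) : A₀) x V₁₁)
    (hV02 : IsVertical A₀ (ModelField K₁ (M' * q * q)) ((q : ℕ) : A₀) x V₀₂)
    (hgauss : ∀ z : ModelField K₁ (M' * q * q), z ∈ V₂₀ → z ∈ V₁₁ → z ∈ V₀₂ →
      z ∈ gaussClosure A₀ (ModelField K₁ (M' * q * q)) ((q : ℕ) : A₀) x)
    (hregL : ∀ 𝔪' : Ideal (chartClosure A₀ (ModelField K₁ (M' * q)) x'), 𝔪'.IsMaximal →
      algebraMap A₀ (chartClosure A₀ (ModelField K₁ (M' * q)) x') ((q : ℕ) : A₀) ∈ 𝔪' →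
      RegLAtOne A₀ (ModelField K₁ (M' * q)) ((q : ℕ) : A₀) x' 𝔪'
        (vInf K₁ A₀ (M' * q)) (vZero K₁ A₀ (M' * q) W) X₁ Y₁)
    (hX₂ : (heckeBetaBar K₁ (M' * q) q).toRingHom X₁ =
      Z + (heckeAlphaBar K₁ (M' * q) q).toRingHom Y₁)
    (hZ : Z ∈ chartClosure A₀ (ModelField K₁ (M' * q * q)) x)
    (Gα Gβ : ModelField K₁ (M' * q * q))
    (hGα : ∀ 𝔫 : Ideal (chartClosure A₀ (ModelField K₁ (M' * q * q)) x), 𝔫.IsMaximal →
      algebraMap A₀ (chartClosure A₀ (ModelField K₁ (M' * q * q)) x) ((q : ℕ) : A₀) ∈ 𝔫 →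
      Fermat.Agent.H11.SS2.InLoc A₀ (ModelField K₁ (M' * q * q)) x 𝔫 Gα)
    (hrelα : Z ^ (q - 1) * (Z + (heckeAlphaBar K₁ (M' * q) q).toRingHom Y₁) -
      (heckeAlphaBar K₁ (M' * q) q).toRingHom X₁ +
      algebraMap A₀ (ModelField K₁ (M' * q * q)) ((q : ℕ) : A₀) * Gα = 0)
    (hGβ : ∀ 𝔫 : Ideal (chartClosure A₀ (ModelField K₁ (M' * q * q)) x), 𝔫.IsMaximal →
      algebraMap A₀ (chartClosure A₀ (ModelField K₁ (M' * q * q)) x) ((q : ℕ) : A₀) ∈ 𝔫 →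
      Fermat.Agent.H11.SS2.InLoc A₀ (ModelField K₁ (M' * q * q)) x 𝔫 Gβ)
    (hrelβ : (-Z) ^ (q - 1) * (-Z + (heckeBetaBar K₁ (M' * q) q).toRingHom X₁) -
      (heckeBetaBar K₁ (M' * q) q).toRingHom Y₁ +
      algebraMap A₀ (ModelField K₁ (M' * q * q)) ((q : ℕ) : A₀) * Gβ = 0)
    (𝔫 : Ideal (chartClosure A₀ (ModelField K₁ (M' * q * q)) x)) (h𝔫 : 𝔫.IsMaximal)
    (h20 : Through A₀ (ModelField K₁ (M' * q * q)) x 𝔫 V₂₀)
    (h11 : Through A₀ (ModelField K₁ (M' * q * q)) x 𝔫 V₁₁) :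
    Through A₀ (ModelField K₁ (M' * q * q)) x 𝔫 V₀₂ :=
  pm_through_of_asmPt
    (asmPt_model_chart M' q K₁ A₀ hq hqM hirr x' hx' x hx W hW V₂₀ V₁₁ V₀₂ X₁ Y₁ Z hval hV20
      hV11 hV02 hgauss hregL hX₂ hZ Gα Gβ hGα hrelα hGβ hrelβ 𝔫 h𝔫
      (pm_pi_mem_of_through hV20 h20)
      (fun _ _ _ _ _ _ _ hN20 _ _ _ _ _ => absurd h20 hN20)) h20 h11

/-- A vertical valuation of the chart `x` is a vertical valuation of the chart `x⁻¹`. -/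
theorem pm_isVertical_inv {A : Type} [CommRing A] [IsDomain A] [IsDiscreteValuationRing A]
    {E : Type} [Field E] [Algebra A E] {ϖ : A} {x : E} (hx : Transcendental A x)
    {V : ValuationSubring E} (hV : IsVertical A E ϖ x V) : IsVertical A E ϖ x⁻¹ V := by
  refine ⟨hV.1, hV.2.1, fun z hz => hV.2.2.1 z ?_, hV.2.2.2⟩
  have := Fermat.Agent.H89.klg_gaussClosure_le_inv (Fermat.Agent.H89.klg_transcendental_inv hx)
    hz
  rwa [inv_inv] at this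

/-- **(P), chart `j⁻¹`**: `AsmPt` at a cusp `𝔪 ∋ q, x⁻¹` of the chart `x⁻¹` of level `M' q q`,
from the keystone, the level-`L` regularity (chart `j⁻¹`), the local integrality of `β` at the
cusp and the regularity at the cusps on `V₁₁` only. -/
theorem asmPt_model_cusp (hq : q.Prime) (hqM : ¬ q ∣ M') (hirr : Irreducible ((q : ℕ) : A₀))
    (x' : ModelField K₁ (M' * q)) (hx' : (x' : LaurentSeries K₁) = jqModC K₁)
    (x : ModelField K₁ (M' * q * q)) (hx : (x : LaurentSeries K₁) = jqModC K₁)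
    (W : ModelField K₁ (M' * q) ≃ₐ[K₁] ModelField K₁ (M' * q))
    (hW : IsAtkinLehnerModel K₁ M' q W)
    (V₂₀ V₁₁ V₀₂ : ValuationSubring (ModelField K₁ (M' * q * q)))
    (X₁ Y₁ : ModelField K₁ (M' * q)) (Z : ModelField K₁ (M' * q * q))
    (hval : Val3Data (heckeAlphaBar K₁ (M' * q) q).toRingHom
      (heckeBetaBar K₁ (M' * q) q).toRingHom (vInf K₁ A₀ (M' * q))
      (vZero K₁ A₀ (M' * q) W) V₂₀ V₁₁ V₀₂ q Y₁ Z)
    (hV20 : IsVertical A₀ (ModelField K₁ (M' * q * q)) ((q : ℕ) : A₀) x V₂₀)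
    (hV11 : IsVertical A₀ (ModelField K₁ (M' * q * q)) ((q : ℕ) : A₀) x V₁₁)
    (hV02 : IsVertical A₀ (ModelField K₁ (M' * q * q)) ((q : ℕ) : A₀) x V₀₂)
    (hgauss : ∀ z : ModelField K₁ (M' * q * q), z ∈ V₂₀ → z ∈ V₁₁ → z ∈ V₀₂ →
      z ∈ gaussClosure A₀ (ModelField K₁ (M' * q * q)) ((q : ℕ) : A₀) x)
    (hregL : ∀ 𝔪' : Ideal (chartClosure A₀ (ModelField K₁ (M' * q)) x'⁻¹), 𝔪'.IsMaximal →
      algebraMap A₀ (chartClosure A₀ (ModelField K₁ (M' * q)) x'⁻¹) ((q : ℕ) : A₀) ∈ 𝔪' →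
      RegLAt A₀ (ModelField K₁ (M' * q)) ((q : ℕ) : A₀) x'⁻¹ 𝔪'
        (vInf K₁ A₀ (M' * q)) (vZero K₁ A₀ (M' * q) W) X₁ Y₁)
    (hsmL : ∀ 𝔪' : Ideal (chartClosure A₀ (ModelField K₁ (M' * q)) x'⁻¹), 𝔪'.IsMaximal →
      algebraMap A₀ (chartClosure A₀ (ModelField K₁ (M' * q)) x'⁻¹) ((q : ℕ) : A₀) ∈ 𝔪' →
      (∀ h : x'⁻¹ ∈ chartClosure A₀ (ModelField K₁ (M' * q)) x'⁻¹,
        (⟨x'⁻¹, h⟩ : chartClosure A₀ (ModelField K₁ (M' * q)) x'⁻¹) ∈ 𝔪') →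
      ¬ (Through A₀ (ModelField K₁ (M' * q)) x'⁻¹ 𝔪' (vInf K₁ A₀ (M' * q)) ∧
        Through A₀ (ModelField K₁ (M' * q)) x'⁻¹ 𝔪' (vZero K₁ A₀ (M' * q) W)))
    (𝔪 : Ideal (chartClosure A₀ (ModelField K₁ (M' * q * q)) x⁻¹)) (h𝔪 : 𝔪.IsMaximal)
    (hq𝔪 : algebraMap A₀ (chartClosure A₀ (ModelField K₁ (M' * q * q)) x⁻¹)
      ((q : ℕ) : A₀) ∈ 𝔪)
    (hcusp : ∃ h : x⁻¹ ∈ chartClosure A₀ (ModelField K₁ (M' * q * q)) x⁻¹,
      (⟨x⁻¹, h⟩ : chartClosure A₀ (ModelField K₁ (M' * q * q)) x⁻¹) ∈ 𝔪)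
    (hφβ : ∀ s : chartClosure A₀ (ModelField K₁ (M' * q)) x'⁻¹,
      Fermat.Agent.H99.SS2.InLoc A₀ (ModelField K₁ (M' * q * q)) x⁻¹ 𝔪
        ((heckeBetaBar K₁ (M' * q) q).toRingHom s))
    (hβy : Fermat.Agent.H99.SS2.InLocMax A₀ (ModelField K₁ (M' * q * q)) x⁻¹ 𝔪
      ((heckeBetaBar K₁ (M' * q) q).toRingHom x'⁻¹))
    (h11 : ∀ 𝔪α 𝔪β : Ideal (chartClosure A₀ (ModelField K₁ (M' * q)) x'⁻¹),
      𝔪α.IsMaximal → 𝔪β.IsMaximal →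
      Fermat.Agent.H99.SS2.LiesOverAlong A₀ (ModelField K₁ (M' * q * q))
        (ModelField K₁ (M' * q)) (heckeAlphaBar K₁ (M' * q) q).toRingHom x'⁻¹ x⁻¹ 𝔪α 𝔪 →
      Fermat.Agent.H99.SS2.LiesOverAlong A₀ (ModelField K₁ (M' * q * q))
        (ModelField K₁ (M' * q)) (heckeBetaBar K₁ (M' * q) q).toRingHom x'⁻¹ x⁻¹ 𝔪β 𝔪 →
      Through A₀ (ModelField K₁ (M' * q * q)) x⁻¹ 𝔪 V₁₁ →
      ¬ Through A₀ (ModelField K₁ (M' * q * q)) x⁻¹ 𝔪 V₂₀ →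
      ¬ Through A₀ (ModelField K₁ (M' * q * q)) x⁻¹ 𝔪 V₀₂ →
      Through A₀ (ModelField K₁ (M' * q)) x'⁻¹ 𝔪α (vInf K₁ A₀ (M' * q)) →
      ¬ Through A₀ (ModelField K₁ (M' * q)) x'⁻¹ 𝔪α (vZero K₁ A₀ (M' * q) W) →
      Through A₀ (ModelField K₁ (M' * q)) x'⁻¹ 𝔪β (vZero K₁ A₀ (M' * q) W) →
      ¬ Through A₀ (ModelField K₁ (M' * q)) x'⁻¹ 𝔪β (vInf K₁ A₀ (M' * q)) →
      ∃ x₁ x₂ : ModelField K₁ (M' * q * q),
        IsRegPoint A₀ (ModelField K₁ (M' * q * q)) ((q : ℕ) : A₀) x⁻¹ 𝔪 V₁₁ x₁ x₂) :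
    AsmPt A₀ (ModelField K₁ (M' * q)) (ModelField K₁ (M' * q * q)) q
      (heckeAlphaBar K₁ (M' * q) q).toRingHom (heckeBetaBar K₁ (M' * q) q).toRingHom
      (vInf K₁ A₀ (M' * q)) (vZero K₁ A₀ (M' * q) W) V₂₀ V₁₁ V₀₂ x⁻¹ 𝔪 := by
  haveI : CharZero K₁ := algebraRat.charZero K₁
  haveI : CharZero (ModelField K₁ (M' * q)) :=
    charZero_of_injective_algebraMap (algebraMap K₁ (ModelField K₁ (M' * q))).injective
  haveI : CharZero (ModelField K₁ (M' * q * q)) :=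
    charZero_of_injective_algebraMap (algebraMap K₁ (ModelField K₁ (M' * q * q))).injective
  have hx'c : (x' : LaurentSeries K₁) = coeffEmb K₁ jq := by
    rw [Fermat.Agent.H35.SS2.ss2_coeffEmb_jq]; exact hx'
  have hT' := pm_transcendental K₁ A₀ (M' * q) x' hx'
  have hT := pm_transcendental K₁ A₀ (M' * q * q) x hx
  have hαx : (heckeAlphaBar K₁ (M' * q) q).toRingHom x' = x :=
    Fermat.Agent.H35.SS2.ss2_alpha_chart (M' * q) q K₁ x x' hx hx'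
  have hαxi : (heckeAlphaBar K₁ (M' * q) q).toRingHom x'⁻¹ = x⁻¹ := by
    rw [map_inv₀, hαx]
  have h𝔪p : 𝔪.IsPrime := h𝔪.isPrime
  have hφα : ∀ s : chartClosure A₀ (ModelField K₁ (M' * q)) x'⁻¹,
      Fermat.Agent.H99.SS2.InLoc A₀ (ModelField K₁ (M' * q * q)) x⁻¹ 𝔪
        ((heckeAlphaBar K₁ (M' * q) q).toRingHom s) := by
    intro s
    have h1 := Fermat.Agent.H99.SS2.map_mem_chartClosure_self (A := A₀)
      (heckeAlphaBar K₁ (M' * q) q).toRingHom (pm_alpha_commutes M' q K₁ A₀) s.2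
    rw [hαxi] at h1
    exact Fermat.Agent.H99.SS2.InLoc.of_mem h𝔪p h1
  have hαy : Fermat.Agent.H99.SS2.InLocMax A₀ (ModelField K₁ (M' * q * q)) x⁻¹ 𝔪
      ((heckeAlphaBar K₁ (M' * q) q).toRingHom x'⁻¹) := by
    obtain ⟨h, hm⟩ := hcusp
    have h2 := Fermat.Agent.H99.SS2.InLocMax.of_mem
      (c := (⟨x⁻¹, h⟩ : chartClosure A₀ (ModelField K₁ (M' * q * q)) x⁻¹)) h𝔪p hm
    rw [hαxi]
    exact h2
  exact Fermat.Agent.H99.SS2.asmPt_val3_cusp_below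
    (pm_algebraMap_injective K₁ A₀ (M' * q)) (pm_algebraMap_injective K₁ A₀ (M' * q * q))
    q hirr (Fermat.Agent.H89.klg_transcendental_inv hT')
    (pm_finite_inv K₁ A₀ (M' * q) x' hx')
    (Fermat.Agent.H89.klg_transcendental_inv hT) (pm_finite_inv K₁ A₀ (M' * q * q) x hx)
    (heckeAlphaBar K₁ (M' * q) q).toRingHom (heckeBetaBar K₁ (M' * q) q).toRingHom
    (pm_alpha_commutes M' q K₁ A₀) (pm_beta_commutes M' q K₁ A₀)
    (vInf K₁ A₀ (M' * q)) (vZero K₁ A₀ (M' * q) W) V₂₀ V₁₁ V₀₂ X₁ Y₁ Z hval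
    (pm_isVertical_inv hT hV20) (pm_isVertical_inv hT hV11) (pm_isVertical_inv hT hV02)
    (fun z h1 h2 h3 => Fermat.Agent.H89.klg_gaussClosure_le_inv hT (hgauss z h1 h2 h3))
    (Fermat.Agent.H99.SS2.modelFrac_vInf_inv M' q K₁ A₀ hq hqM hirr.not_isUnit x' hx'c W hW)
    (Fermat.Agent.H99.SS2.modelFrac_vZero_inv M' q K₁ A₀ hq hqM hirr.not_isUnit x' hx'c W hW)
    hregL hsmL 𝔪 h𝔪 hq𝔪 hφα hφβ hαy hβy h11

end Model

section Points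

variable (M' q : ℕ) [NeZero M'] [NeZero q]
  (K₁ : Type) [Field K₁] [Algebra ℚ K₁] [FiniteDimensional ℚ K₁]
  (OK : ValuationSubring K₁) [IsDiscreteValuationRing ↥OK]
  [Algebra ↥OK (ModelField K₁ (M' * q))] [IsScalarTower ↥OK K₁ (ModelField K₁ (M' * q))]
  [Algebra ↥OK (ModelField K₁ (M' * q * q))]
  [IsScalarTower ↥OK K₁ (ModelField K₁ (M' * q * q))]

/-- **(P) POINTS, from the concrete rows** (all primes `q`, no Hauptmodul): the hypotheses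
`hptf`, `hpti` of ASM-CORE at the model of level `M' q q` over the base `OK`, for
`O₁ = vInf`, `O₂ = vZero W`. -/
theorem asmPoints_of_rows (hq : q.Prime) (hqM : ¬ q ∣ M') (hirr : Irreducible ((q : ℕ) : ↥OK))
    (x' : ModelField K₁ (M' * q)) (hx' : (x' : LaurentSeries K₁) = jqModC K₁)
    (x : ModelField K₁ (M' * q * q)) (hx : (x : LaurentSeries K₁) = jqModC K₁)
    (W : ModelField K₁ (M' * q) ≃ₐ[K₁] ModelField K₁ (M' * q))
    (hW : IsAtkinLehnerModel K₁ M' q W)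
    (V₂₀ V₁₁ V₀₂ : ValuationSubring (ModelField K₁ (M' * q * q)))
    (X₁ Y₁ : ModelField K₁ (M' * q)) (Z : ModelField K₁ (M' * q * q))
    -- (G) the keystone
    (hval : Val3Data (heckeAlphaBar K₁ (M' * q) q).toRingHom
      (heckeBetaBar K₁ (M' * q) q).toRingHom (vInf K₁ ↥OK (M' * q))
      (vZero K₁ ↥OK (M' * q) W) V₂₀ V₁₁ V₀₂ q Y₁ Z)
    (hV20 : IsVertical ↥OK (ModelField K₁ (M' * q * q)) ((q : ℕ) : ↥OK) x V₂₀)
    (hV11 : IsVertical ↥OK (ModelField K₁ (M' * q * q)) ((q : ℕ) : ↥OK) x V₁₁)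
    (hV02 : IsVertical ↥OK (ModelField K₁ (M' * q * q)) ((q : ℕ) : ↥OK) x V₀₂)
    (hgauss : ∀ z : ModelField K₁ (M' * q * q), z ∈ V₂₀ → z ∈ V₁₁ → z ∈ V₀₂ →
      z ∈ gaussClosure ↥OK (ModelField K₁ (M' * q * q)) ((q : ℕ) : ↥OK) x)
    -- the regularity of level `L = M' q`
    (hregL : ∀ 𝔪' : Ideal (chartClosure ↥OK (ModelField K₁ (M' * q)) x'), 𝔪'.IsMaximal →
      algebraMap ↥OK (chartClosure ↥OK (ModelField K₁ (M' * q)) x') ((q : ℕ) : ↥OK) ∈ 𝔪' →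
      RegLAtOne ↥OK (ModelField K₁ (M' * q)) ((q : ℕ) : ↥OK) x' 𝔪'
        (vInf K₁ ↥OK (M' * q)) (vZero K₁ ↥OK (M' * q) W) X₁ Y₁)
    (hregLi : ∀ 𝔪' : Ideal (chartClosure ↥OK (ModelField K₁ (M' * q)) x'⁻¹), 𝔪'.IsMaximal →
      algebraMap ↥OK (chartClosure ↥OK (ModelField K₁ (M' * q)) x'⁻¹) ((q : ℕ) : ↥OK) ∈ 𝔪' →
      RegLAt ↥OK (ModelField K₁ (M' * q)) ((q : ℕ) : ↥OK) x'⁻¹ 𝔪'
        (vInf K₁ ↥OK (M' * q)) (vZero K₁ ↥OK (M' * q) W) X₁ Y₁)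
    (hsmL : ∀ 𝔪' : Ideal (chartClosure ↥OK (ModelField K₁ (M' * q)) x'⁻¹), 𝔪'.IsMaximal →
      algebraMap ↥OK (chartClosure ↥OK (ModelField K₁ (M' * q)) x'⁻¹) ((q : ℕ) : ↥OK) ∈ 𝔪' →
      (∀ h : x'⁻¹ ∈ chartClosure ↥OK (ModelField K₁ (M' * q)) x'⁻¹,
        (⟨x'⁻¹, h⟩ : chartClosure ↥OK (ModelField K₁ (M' * q)) x'⁻¹) ∈ 𝔪') →
      ¬ (Through ↥OK (ModelField K₁ (M' * q)) x'⁻¹ 𝔪' (vInf K₁ ↥OK (M' * q)) ∧
        Through ↥OK (ModelField K₁ (M' * q)) x'⁻¹ 𝔪' (vZero K₁ ↥OK (M' * q) W)))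
    -- the Kronecker relations
    (hX₂ : (heckeBetaBar K₁ (M' * q) q).toRingHom X₁ =
      Z + (heckeAlphaBar K₁ (M' * q) q).toRingHom Y₁)
    (hZ : Z ∈ chartClosure ↥OK (ModelField K₁ (M' * q * q)) x)
    (Gα Gβ : ModelField K₁ (M' * q * q))
    (hGα : ∀ 𝔫 : Ideal (chartClosure ↥OK (ModelField K₁ (M' * q * q)) x), 𝔫.IsMaximal →
      algebraMap ↥OK (chartClosure ↥OK (ModelField K₁ (M' * q * q)) x) ((q : ℕ) : ↥OK) ∈ 𝔫 →
      Fermat.Agent.H11.SS2.InLoc ↥OK (ModelField K₁ (M' * q * q)) x 𝔫 Gα)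
    (hrelα : Z ^ (q - 1) * (Z + (heckeAlphaBar K₁ (M' * q) q).toRingHom Y₁) -
      (heckeAlphaBar K₁ (M' * q) q).toRingHom X₁ +
      algebraMap ↥OK (ModelField K₁ (M' * q * q)) ((q : ℕ) : ↥OK) * Gα = 0)
    (hGβ : ∀ 𝔫 : Ideal (chartClosure ↥OK (ModelField K₁ (M' * q * q)) x), 𝔫.IsMaximal →
      algebraMap ↥OK (chartClosure ↥OK (ModelField K₁ (M' * q * q)) x) ((q : ℕ) : ↥OK) ∈ 𝔫 →
      Fermat.Agent.H11.SS2.InLoc ↥OK (ModelField K₁ (M' * q * q)) x 𝔫 Gβ)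
    (hrelβ : (-Z) ^ (q - 1) * (-Z + (heckeBetaBar K₁ (M' * q) q).toRingHom X₁) -
      (heckeBetaBar K₁ (M' * q) q).toRingHom Y₁ +
      algebraMap ↥OK (ModelField K₁ (M' * q * q)) ((q : ℕ) : ↥OK) * Gβ = 0)
    -- `β` at the cusps
    (hφβ : ∀ 𝔪 : Ideal (chartClosure ↥OK (ModelField K₁ (M' * q * q)) x⁻¹), 𝔪.IsMaximal →
      algebraMap ↥OK (chartClosure ↥OK (ModelField K₁ (M' * q * q)) x⁻¹) ((q : ℕ) : ↥OK) ∈ 𝔪 →
      (∃ h : x⁻¹ ∈ chartClosure ↥OK (ModelField K₁ (M' * q * q)) x⁻¹,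
        (⟨x⁻¹, h⟩ : chartClosure ↥OK (ModelField K₁ (M' * q * q)) x⁻¹) ∈ 𝔪) →
      (∀ s : chartClosure ↥OK (ModelField K₁ (M' * q)) x'⁻¹,
        Fermat.Agent.H99.SS2.InLoc ↥OK (ModelField K₁ (M' * q * q)) x⁻¹ 𝔪
          ((heckeBetaBar K₁ (M' * q) q).toRingHom s)) ∧
      Fermat.Agent.H99.SS2.InLocMax ↥OK (ModelField K₁ (M' * q * q)) x⁻¹ 𝔪
        ((heckeBetaBar K₁ (M' * q) q).toRingHom x'⁻¹))
    -- REG11 (chart `j`)
    (h11 : ∀ 𝔪 : Ideal (chartClosure ↥OK (ModelField K₁ (M' * q * q)) x), 𝔪.IsMaximal →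
      algebraMap ↥OK (chartClosure ↥OK (ModelField K₁ (M' * q * q)) x) ((q : ℕ) : ↥OK) ∈ 𝔪 →
      ∀ 𝔪α 𝔪β : Ideal (chartClosure ↥OK (ModelField K₁ (M' * q)) x'),
      𝔪α.IsMaximal → 𝔪β.IsMaximal →
      Fermat.Agent.H99.SS2.LiesOverAlong ↥OK (ModelField K₁ (M' * q * q))
        (ModelField K₁ (M' * q)) (heckeAlphaBar K₁ (M' * q) q).toRingHom x' x 𝔪α 𝔪 →
      Fermat.Agent.H99.SS2.LiesOverAlong ↥OK (ModelField K₁ (M' * q * q))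
        (ModelField K₁ (M' * q)) (heckeBetaBar K₁ (M' * q) q).toRingHom x' x 𝔪β 𝔪 →
      Through ↥OK (ModelField K₁ (M' * q * q)) x 𝔪 V₁₁ →
      ¬ Through ↥OK (ModelField K₁ (M' * q * q)) x 𝔪 V₂₀ →
      ¬ Through ↥OK (ModelField K₁ (M' * q * q)) x 𝔪 V₀₂ →
      Through ↥OK (ModelField K₁ (M' * q)) x' 𝔪α (vInf K₁ ↥OK (M' * q)) →
      ¬ Through ↥OK (ModelField K₁ (M' * q)) x' 𝔪α (vZero K₁ ↥OK (M' * q) W) →
      Through ↥OK (ModelField K₁ (M' * q)) x' 𝔪β (vZero K₁ ↥OK (M' * q) W) →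
      ¬ Through ↥OK (ModelField K₁ (M' * q)) x' 𝔪β (vInf K₁ ↥OK (M' * q)) →
      ∃ x₁ x₂ : ModelField K₁ (M' * q * q),
        IsRegPoint ↥OK (ModelField K₁ (M' * q * q)) ((q : ℕ) : ↥OK) x 𝔪 V₁₁ x₁ x₂)
    -- CUSP11 (chart `j⁻¹`)
    (h11c : ∀ 𝔪 : Ideal (chartClosure ↥OK (ModelField K₁ (M' * q * q)) x⁻¹), 𝔪.IsMaximal →
      algebraMap ↥OK (chartClosure ↥OK (ModelField K₁ (M' * q * q)) x⁻¹) ((q : ℕ) : ↥OK) ∈ 𝔪 →
      (∃ h : x⁻¹ ∈ chartClosure ↥OK (ModelField K₁ (M' * q * q)) x⁻¹,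
        (⟨x⁻¹, h⟩ : chartClosure ↥OK (ModelField K₁ (M' * q * q)) x⁻¹) ∈ 𝔪) →
      ∀ 𝔪α 𝔪β : Ideal (chartClosure ↥OK (ModelField K₁ (M' * q)) x'⁻¹),
      𝔪α.IsMaximal → 𝔪β.IsMaximal →
      Fermat.Agent.H99.SS2.LiesOverAlong ↥OK (ModelField K₁ (M' * q * q))
        (ModelField K₁ (M' * q)) (heckeAlphaBar K₁ (M' * q) q).toRingHom x'⁻¹ x⁻¹ 𝔪α 𝔪 →
      Fermat.Agent.H99.SS2.LiesOverAlong ↥OK (ModelField K₁ (M' * q * q))
        (ModelField K₁ (M' * q)) (heckeBetaBar K₁ (M' * q) q).toRingHom x'⁻¹ x⁻¹ 𝔪β 𝔪 →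
      Through ↥OK (ModelField K₁ (M' * q * q)) x⁻¹ 𝔪 V₁₁ →
      ¬ Through ↥OK (ModelField K₁ (M' * q * q)) x⁻¹ 𝔪 V₂₀ →
      ¬ Through ↥OK (ModelField K₁ (M' * q * q)) x⁻¹ 𝔪 V₀₂ →
      Through ↥OK (ModelField K₁ (M' * q)) x'⁻¹ 𝔪α (vInf K₁ ↥OK (M' * q)) →
      ¬ Through ↥OK (ModelField K₁ (M' * q)) x'⁻¹ 𝔪α (vZero K₁ ↥OK (M' * q) W) →
      Through ↥OK (ModelField K₁ (M' * q)) x'⁻¹ 𝔪β (vZero K₁ ↥OK (M' * q) W) →
      ¬ Through ↥OK (ModelField K₁ (M' * q)) x'⁻¹ 𝔪β (vInf K₁ ↥OK (M' * q)) →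
      ∃ x₁ x₂ : ModelField K₁ (M' * q * q),
        IsRegPoint ↥OK (ModelField K₁ (M' * q * q)) ((q : ℕ) : ↥OK) x⁻¹ 𝔪 V₁₁ x₁ x₂) :
    Fermat.Agent.H35.SS2.AsmPoints M' q K₁ OK x (vInf K₁ ↥OK (M' * q))
      (vZero K₁ ↥OK (M' * q) W) V₂₀ V₁₁ V₀₂ := by
  refine ⟨fun 𝔪 h𝔪 hq𝔪 => ?_, fun 𝔪 h𝔪 hq𝔪 hc => ?_⟩
  · exact asmPt_model_chart M' q K₁ ↥OK hq hqM hirr x' hx' x hx W hW V₂₀ V₁₁ V₀₂ X₁ Y₁ Z hval
      hV20 hV11 hV02 hgauss hregL hX₂ hZ Gα Gβ hGα hrelα hGβ hrelβ 𝔪 h𝔪 hq𝔪 (h11 𝔪 h𝔪 hq𝔪)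
  · exact asmPt_model_cusp M' q K₁ ↥OK hq hqM hirr x' hx' x hx W hW V₂₀ V₁₁ V₀₂ X₁ Y₁ Z hval
      hV20 hV11 hV02 hgauss hregLi hsmL 𝔪 h𝔪 hq𝔪 hc (hφβ 𝔪 h𝔪 hq𝔪 hc).1 (hφβ 𝔪 h𝔪 hq𝔪 hc).2
      (h11c 𝔪 h𝔪 hq𝔪 hc)

end Points

end Fermat.Agent.H97.SS2
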